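/-
S25 LIB: API for the frozen predicate `Rigid` of `Defs.lean` (helper48).

* `SemiUniv B' j ↔ IsBaseChange B' j`: the universal property used in `Defs.lean`
  (`BaseChangeData.univ₁/₂`, `Rigid`) is Mathlib's `IsBaseChange`;
* `rigid_iff_isBaseChange`: `Rigid 𝒞 N` iff `R` is the base change of `N₁` along `ε : B₁ → R`;
* `rigid_of_surjective` / `exists_surjective_of_rigid`: for `N₁` invertible, `Rigid 𝒞 N` iff there is
  a SURJECTIVE `ε`-semilinear map `N₁ → R`;
* `rigid_unit`, `rigid_of_iso`, `rigid_twist_iff`, `epsR_chartHom`, `rigid_of_baseChangeData`,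
  `rigid_of_isBC` (stability under base change along `𝒞.chartHom φ`).

Imports only the frozen `Defs.lean`.  No sorry.
-/
import Fermat.Agent.S25.Defs

set_option autoImplicit false
set_option linter.style.haveILetI false

universe u

namespace Fermat.Agent.S25.Lib.Rigid

open scoped TensorProduct

section SingleChart

variable {B : Type u} [CommRing B]
  {N N' : Type u} [AddCommGroup N] [Module B N] [AddCommGroup N']
  [Module B N']

/-- The universal property used in `BaseChangeData.univ₁/₂` (and in `Rigid`), for a `B`-linear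
map `j : N → N'` into a `B'`-module (`B'` a `B`-algebra). -/
def SemiUniv (B' : Type u) [CommRing B'] [Algebra B B'] [Module B' N'] [IsScalarTower B B' N']
    (j : N →ₗ[B] N') : Prop :=
  ∀ (Q : Type u) [AddCommGroup Q] [Module B' Q] (h : N →+ Q),
    (∀ (b : B) (n : N), h (b • n) = algebraMap B B' b • h n) →
      ∃! h' : N' →ₗ[B'] Q, ∀ n, h' (j n) = h n

variable {B' : Type u} [CommRing B'] [Algebra B B'] [Module B' N'] [IsScalarTower B B' N']

/-- Mathlib's `IsBaseChange` implies the universal property of `Defs.lean`. -/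
theorem semiUniv_of_isBaseChange {j : N →ₗ[B] N'} (hj : IsBaseChange B' j) : SemiUniv B' j := by
  intro Q _ _ h hh
  let _ : Module B Q := Module.compHom Q (algebraMap B B')
  have : IsScalarTower B B' Q := IsScalarTower.of_algebraMap_smul fun _ _ => rfl
  let g : N →ₗ[B] Q :=
    { toFun := h
      map_add' := h.map_add
      map_smul' := fun b n => hh b n }
  refine ⟨hj.lift g, fun n => hj.lift_eq g n, fun h' hh' => ?_⟩
  exact hj.algHom_ext _ _ fun n => (hh' n).trans (hj.lift_eq g n).symm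

/-- The universal property of `Defs.lean` implies Mathlib's `IsBaseChange`. -/
theorem isBaseChange_of_semiUniv {j : N →ₗ[B] N'} (hj : SemiUniv B' j) : IsBaseChange B' j := by
  let F : B' ⊗[B] N →ₗ[B'] N' :=
    TensorProduct.AlgebraTensorModule.lift
      (((LinearMap.lsmul B' N').flip).restrictScalars B |>.comp j |>.flip)
  have hF : ∀ (s : B') (n : N), F (s ⊗ₜ[B] n) = s • j n := fun s n => rfl
  obtain ⟨G, hG, -⟩ := hj (B' ⊗[B] N) ((TensorProduct.mk B B' N 1).toAddMonoidHom)
    (fun b n => by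
      change (1 : B') ⊗ₜ[B] (b • n) = algebraMap B B' b • ((1 : B') ⊗ₜ[B] n)
      rw [TensorProduct.smul_tmul', ← TensorProduct.smul_tmul, Algebra.smul_def, mul_one,
        smul_eq_mul, mul_one])
  have hG' : ∀ n, G (j n) = (1 : B') ⊗ₜ[B] n := hG
  have h1 : F.comp G = LinearMap.id := by
    obtain ⟨_, -, huniq⟩ := hj N' j.toAddMonoidHom (fun b n => by
      change j (b • n) = algebraMap B B' b • j n
      rw [map_smul, algebraMap_smul])
    rw [huniq (F.comp G) (fun n => by
      change F (G (j n)) = j n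
      rw [hG', hF, one_smul]), huniq LinearMap.id (fun n => rfl)]
  have h2 : G.comp F = LinearMap.id := by
    apply TensorProduct.AlgebraTensorModule.curry_injective
    ext n
    change G (F ((1 : B') ⊗ₜ[B] n)) = (1 : B') ⊗ₜ[B] n
    rw [hF, one_smul, hG']
  let e : B' ⊗[B] N ≃ₗ[B'] N' := LinearEquiv.ofLinearMap F G h1 h2
  exact IsBaseChange.of_equiv e (fun n => by
    change F ((1 : B') ⊗ₜ[B] n) = j n
    rw [hF, one_smul])

theorem semiUniv_iff_isBaseChange (j : N →ₗ[B] N') : SemiUniv B' j ↔ IsBaseChange B' j :=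
  ⟨isBaseChange_of_semiUniv, semiUniv_of_isBaseChange⟩

end SingleChart

section Rigid

variable {k : Type u} [Field k] (𝒞 : CurveData k) {R : Type u} [CommRing R] [Algebra k R]

/-- `R` as an algebra over the first chart ring `B₁ = R ⊗[k] A₁` via the point `ε`
(use with `letI`, never as a global instance). -/
@[reducible] noncomputable def epsAlgebra : Algebra (𝒞.chart R).B₁ R :=
  (𝒞.epsR R).toRingHom.toAlgebra

theorem epsTower :
    letI := epsAlgebra 𝒞 (R := R)
    IsScalarTower R (𝒞.chart R).B₁ R :=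
  letI := epsAlgebra 𝒞 (R := R)
  IsScalarTower.of_algebraMap_eq fun c => ((𝒞.epsR R).commutes c).symm

theorem epsR_surjective : Function.Surjective (𝒞.epsR R) := fun r =>
  ⟨algebraMap R (𝒞.chart R).B₁ r, (𝒞.epsR R).commutes r⟩

theorem epsR_tmul (r : R) (a : 𝒞.A₁) :
    𝒞.epsR R (r ⊗ₜ[k] a) = r * algebraMap k R (𝒞.ε a) := by
  unfold CurveData.epsR
  erw [Algebra.TensorProduct.lift_tmul]
  rfl

/-- `ε` is compatible with base change of the family. -/
theorem epsR_chartHom {R' : Type u} [CommRing R'] [Algebra k R'] (φ : R →ₐ[k] R')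
    (b : (𝒞.chart R).B₁) : 𝒞.epsR R' ((𝒞.chartHom φ).ψ₁ b) = φ (𝒞.epsR R b) := by
  change 𝒞.epsR R' (Algebra.TensorProduct.map φ (AlgHom.id k 𝒞.A₁) b) = φ (𝒞.epsR R b)
  induction b using TensorProduct.induction_on with
  | zero =>
    rw [map_zero]
    erw [map_zero, map_zero]
  | tmul r a =>
    rw [Algebra.TensorProduct.map_tmul, AlgHom.id_apply]
    erw [epsR_tmul, epsR_tmul]
    rw [map_mul, AlgHom.commutes]
  | add x y hx hy =>
    rw [map_add]
    erw [map_add, map_add]
    rw [map_add]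
    erw [hx, hy]

variable {𝒞}

/-- An `ε`-semilinear map `N₁ → R` as a `B₁`-linear map (`R` a `B₁`-algebra by `epsAlgebra`). -/
def epsLin {N : GluedModule (𝒞.chart R)} (e : N.N₁ →ₗ[R] R)
    (he : ∀ (b : (𝒞.chart R).B₁) (n : N.N₁), e (b • n) = 𝒞.epsR R b * e n) :
    letI := epsAlgebra 𝒞 (R := R)
    N.N₁ →ₗ[(𝒞.chart R).B₁] R :=
  letI := epsAlgebra 𝒞 (R := R)
  { toFun := e
    map_add' := e.map_add
    map_smul' := fun b n => he b n }

/-- `Rigid` in terms of Mathlib's `IsBaseChange`: the `ε`-fibre of `N₁` is `R`. -/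
theorem rigid_iff_isBaseChange (N : GluedModule (𝒞.chart R)) :
    Rigid 𝒞 N ↔ ∃ (e : N.N₁ →ₗ[R] R)
      (he : ∀ (b : (𝒞.chart R).B₁) (n : N.N₁), e (b • n) = 𝒞.epsR R b * e n),
      letI := epsAlgebra 𝒞 (R := R)
      IsBaseChange R (epsLin e he) := by
  letI := epsAlgebra 𝒞 (R := R)
  constructor
  · rintro ⟨e, he, hu⟩
    refine ⟨e, he, isBaseChange_of_semiUniv ?_⟩
    intro Q _ _ h hh
    let hR : N.N₁ →ₗ[R] Q :=
      { toFun := h
        map_add' := h.map_add
        map_smul' := fun c n => by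
          have h1 : c • n = (algebraMap R (𝒞.chart R).B₁ c) • n := (algebraMap_smul _ c n).symm
          change h (c • n) = c • h n
          rw [h1, hh]
          change (𝒞.epsR R) (algebraMap R (𝒞.chart R).B₁ c) • h n = c • h n
          rw [(𝒞.epsR R).commutes c]
          rfl }
    exact hu Q hR (fun b n => hh b n)
  · rintro ⟨e, he, hb⟩
    refine ⟨e, he, ?_⟩
    intro Q _ _ h hh
    exact semiUniv_of_isBaseChange hb Q h.toAddMonoidHom (fun b n => hh b n)

/-- For a module invertible on the first chart, a surjective `ε`-semilinear map `N₁ → R` is a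
rigidification. -/
theorem rigid_of_surjective (N : GluedModule (𝒞.chart R))
    [Module.Invertible (𝒞.chart R).B₁ N.N₁] (e : N.N₁ →ₗ[R] R)
    (he : ∀ (b : (𝒞.chart R).B₁) (n : N.N₁), e (b • n) = 𝒞.epsR R b * e n)
    (hsurj : Function.Surjective e) : Rigid 𝒞 N := by
  letI := epsAlgebra 𝒞 (R := R)
  refine (rigid_iff_isBaseChange N).2 ⟨e, he, ?_⟩
  let T := TensorProduct.isBaseChange (𝒞.chart R).B₁ N.N₁ R
  let F : R ⊗[(𝒞.chart R).B₁] N.N₁ →ₗ[R] R := T.lift (epsLin e he)
  have hF : ∀ n, F ((1 : R) ⊗ₜ[(𝒞.chart R).B₁] n) = e n := fun n => T.lift_eq (epsLin e he) n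
  have hFs : Function.Surjective F := fun r => by
    obtain ⟨n, rfl⟩ := hsurj r
    exact ⟨_, hF n⟩
  have hFb : Function.Bijective F := Module.Invertible.bijective_of_surjective hFs
  exact IsBaseChange.of_equiv (LinearEquiv.ofBijective F hFb) (fun n => hF n)

/-- A rigidification is surjective. -/
theorem exists_surjective_of_rigid (N : GluedModule (𝒞.chart R)) (h : Rigid 𝒞 N) :
    ∃ e : N.N₁ →ₗ[R] R,
      (∀ (b : (𝒞.chart R).B₁) (n : N.N₁), e (b • n) = 𝒞.epsR R b * e n) ∧
        Function.Surjective e := by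
  letI := epsAlgebra 𝒞 (R := R)
  obtain ⟨e, he, hb⟩ := (rigid_iff_isBaseChange N).1 h
  refine ⟨e, he, fun r => ?_⟩
  obtain ⟨t, ht⟩ := hb.equiv.surjective r
  have key : ∀ t : R ⊗[(𝒞.chart R).B₁] N.N₁, ∃ n : N.N₁, e n = hb.equiv t := by
    intro t
    induction t using TensorProduct.induction_on with
    | zero => exact ⟨0, by simp⟩
    | tmul s n =>
      refine ⟨(algebraMap R (𝒞.chart R).B₁ s) • n, ?_⟩
      rw [he, hb.equiv_tmul]
      change (𝒞.epsR R) (algebraMap R (𝒞.chart R).B₁ s) * e n = s • e n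
      rw [(𝒞.epsR R).commutes s]
      rfl
    | add x y hx hy =>
      obtain ⟨n, hn⟩ := hx
      obtain ⟨m, hm⟩ := hy
      exact ⟨n + m, by rw [map_add, map_add, hn, hm]⟩
  obtain ⟨n, hn⟩ := key t
  exact ⟨n, hn.trans ht⟩

/-- For line bundles: `Rigid` iff there is a surjective `ε`-semilinear map `N₁ → R`. -/
theorem rigid_iff_exists_surjective (N : GluedModule (𝒞.chart R))
    [Module.Invertible (𝒞.chart R).B₁ N.N₁] :
    Rigid 𝒞 N ↔ ∃ e : N.N₁ →ₗ[R] R,
      (∀ (b : (𝒞.chart R).B₁) (n : N.N₁), e (b • n) = 𝒞.epsR R b * e n) ∧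
        Function.Surjective e :=
  ⟨exists_surjective_of_rigid N, fun ⟨e, he, hs⟩ => rigid_of_surjective N e he hs⟩

variable (𝒞 R) in
/-- The structure sheaf is rigid. -/
theorem rigid_unit : Rigid 𝒞 (GluedModule.unit (𝒞.chart R)) :=
  rigid_of_surjective (GluedModule.unit (𝒞.chart R)) (𝒞.epsR R).toLinearMap
    (fun b n => by
      change 𝒞.epsR R (b * n) = 𝒞.epsR R b * 𝒞.epsR R n
      exact map_mul _ _ _)
    (epsR_surjective 𝒞)

/-- Rigidity is invariant under isomorphism. -/
theorem rigid_of_iso {N N' : GluedModule (𝒞.chart R)} (α : N.Iso N') (h : Rigid 𝒞 N) :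
    Rigid 𝒞 N' := by
  obtain ⟨e, he, hu⟩ := h
  let a : N.N₁ →ₗ[R] N'.N₁ := α.e₁.toLinearMap.restrictScalars R
  let a' : N'.N₁ →ₗ[R] N.N₁ := α.e₁.symm.toLinearMap.restrictScalars R
  have ha : ∀ n, a' (a n) = n := fun n => α.e₁.symm_apply_apply n
  have ha' : ∀ n, a (a' n) = n := fun n => α.e₁.apply_symm_apply n
  refine ⟨e.comp a', fun b n => ?_, fun Q _ _ h hh => ?_⟩
  · change e (α.e₁.symm (b • n)) = 𝒞.epsR R b * e (α.e₁.symm n)
    rw [map_smul, he]
  · obtain ⟨g, hg, hguniq⟩ := hu Q (h.comp a) (fun b n => by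
      change h (α.e₁ (b • n)) = 𝒞.epsR R b • h (α.e₁ n)
      rw [map_smul, hh])
    refine ⟨g, fun n => ?_, fun g' hg' => hguniq g' fun n => ?_⟩
    · change g (e (a' n)) = h n
      rw [hg (a' n)]
      change h (a (a' n)) = h n
      rw [ha']
    · have := hg' (a n)
      change g' (e (a' (a n))) = h (a n) at this
      rw [ha] at this
      exact this

/-- Twisting does not change the first chart, hence not rigidity. -/
theorem rigid_twist_iff (N : GluedModule (𝒞.chart R)) (n : ℤ) :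
    Rigid 𝒞 (N.twist n) ↔ Rigid 𝒞 N := Iff.rfl

/-- Rigidity is stable under base change (data form). -/
theorem rigid_of_baseChangeData {R' : Type u} [CommRing R'] [Algebra k R'] (φ : R →ₐ[k] R')
    {N : GluedModule (𝒞.chart R)} {N' : GluedModule (𝒞.chart R')}
    (D : GluedModule.BaseChangeData (𝒞.chartHom φ) N N') (h : Rigid 𝒞 N) : Rigid 𝒞 N' := by
  obtain ⟨e, he, hu⟩ := h
  -- `R'` as a `B'₁`-module via `ε`
  letI algR' : Algebra (𝒞.chart R').B₁ R' := epsAlgebra 𝒞 (R := R')
  -- the additive map `φ ∘ e : N₁ → R'`, semilinear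
  let h₀ : N.N₁ →+ R' := (φ : R →+ R').comp e.toAddMonoidHom
  have h₀s : ∀ (b : (𝒞.chart R).B₁) (n : N.N₁), h₀ (b • n) = (𝒞.chartHom φ).ψ₁ b • h₀ n := by
    intro b n
    change φ (e (b • n)) = 𝒞.epsR R' ((𝒞.chartHom φ).ψ₁ b) * φ (e n)
    rw [he, map_mul, epsR_chartHom]
  obtain ⟨e'B, he'B, -⟩ := D.univ₁ R' h₀ h₀s
  have he'B' : ∀ n, e'B (D.j₁ n) = φ (e n) := he'B
  have he'smul : ∀ (b : (𝒞.chart R').B₁) (n : N'.N₁), e'B (b • n) = 𝒞.epsR R' b * e'B n :=
    fun b n => e'B.map_smul b n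
  -- `e'` as an `R'`-linear map
  let e' : N'.N₁ →ₗ[R'] R' :=
    { toFun := e'B
      map_add' := e'B.map_add
      map_smul' := fun c n => by
        have h1 : c • n = (algebraMap R' (𝒞.chart R').B₁ c) • n := (algebraMap_smul _ c n).symm
        change e'B (c • n) = c * e'B n
        rw [h1, he'smul, (𝒞.epsR R').commutes c]
        rfl }
  refine ⟨e', he'smul, fun Q _ _ h hh => ?_⟩
  -- `Q` as an `R`-module via `φ` and as a `B'₁`-module via `ε`
  letI modRQ : Module R Q := Module.compHom Q (φ : R →+* R')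
  letI modBQ : Module (𝒞.chart R').B₁ Q := Module.compHom Q (𝒞.epsR R').toRingHom
  have hcR : ∀ (c : R) (q : Q), c • q = φ c • q := fun _ _ => rfl
  have hcB : ∀ (b : (𝒞.chart R').B₁) (q : Q), b • q = 𝒞.epsR R' b • q := fun _ _ => rfl
  -- the map `h ∘ j₁ : N₁ → Q` is `R`-linear and `ε`-semilinear
  let hj : N.N₁ →ₗ[R] Q :=
    { toFun := fun n => h (D.j₁ n)
      map_add' := fun x y => by rw [map_add, map_add]
      map_smul' := fun c n => by
        have h1 : c • n = (algebraMap R (𝒞.chart R).B₁ c) • n := (algebraMap_smul _ c n).symm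
        change h (D.j₁ (c • n)) = φ c • h (D.j₁ n)
        rw [h1, D.j₁_smul, (𝒞.chartHom φ).alg₁, algebraMap_smul, map_smul]
        rfl }
  obtain ⟨g₀, hg₀, hg₀uniq⟩ := hu Q hj (fun b n => by
    change h (D.j₁ (b • n)) = φ (𝒞.epsR R b) • h (D.j₁ n)
    rw [D.j₁_smul, hh, epsR_chartHom])
  have hg₀' : ∀ n, g₀ (e n) = h (D.j₁ n) := hg₀
  -- candidate: `r' ↦ r' • g₀ 1`
  let g : R' →ₗ[R'] Q := LinearMap.toSpanSingleton R' Q (g₀ 1)
  have hg1 : ∀ r : R, g (φ r) = g₀ r := by
    intro r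
    change φ r • g₀ 1 = g₀ r
    rw [← hcR, ← map_smul, smul_eq_mul, mul_one]
  -- `g ∘ e'` and `h` are `B'₁`-linear maps `N'₁ → Q` agreeing on `j₁`
  let gB : N'.N₁ →ₗ[(𝒞.chart R').B₁] Q :=
    { toFun := fun n => g (e' n)
      map_add' := fun x y => by rw [map_add, map_add]
      map_smul' := fun b n => by
        change g (e'B (b • n)) = 𝒞.epsR R' b • g (e'B n)
        rw [he'smul, ← smul_eq_mul, map_smul] }
  let hB : N'.N₁ →ₗ[(𝒞.chart R').B₁] Q :=
    { toFun := h
      map_add' := h.map_add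
      map_smul' := fun b n => hh b n }
  obtain ⟨_, -, huniq⟩ := D.univ₁ Q ((hB : N'.N₁ →+ Q).comp D.j₁) (fun b n => by
    change h (D.j₁ (b • n)) = (𝒞.chartHom φ).ψ₁ b • h (D.j₁ n)
    rw [D.j₁_smul, hh]
    rfl)
  have hgh : gB = hB := by
    rw [huniq gB (fun n => by
      change g (e'B (D.j₁ n)) = h (D.j₁ n)
      rw [he'B', hg1, hg₀']), huniq hB (fun n => rfl)]
  refine ⟨g, fun n => ?_, fun g' hg' => ?_⟩
  · exact congrArg (fun F : N'.N₁ →ₗ[(𝒞.chart R').B₁] Q => F n) hgh
  · -- uniqueness: compare on `φ(R)` via the universal property of `e`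
    have h2 : ∀ (g'' : R' →ₗ[R'] Q), (∀ n, g'' (e' n) = h n) → g'' 1 = g₀ 1 := by
      intro g'' hg''
      let g₁ : R →ₗ[R] Q :=
        { toFun := fun r => g'' (φ r)
          map_add' := fun x y => by rw [map_add, map_add]
          map_smul' := fun c r => by
            change g'' (φ (c • r)) = φ c • g'' (φ r)
            rw [smul_eq_mul, map_mul, ← smul_eq_mul, map_smul] }
      have : g₁ = g₀ := hg₀uniq g₁ (fun n => by
        change g'' (φ (e n)) = h (D.j₁ n)
        rw [← he'B']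
        exact hg'' (D.j₁ n))
      have h3 := congrArg (fun F : R →ₗ[R] Q => F 1) this
      change g'' (φ 1) = g₀ 1 at h3
      rwa [map_one] at h3
    apply LinearMap.ext_ring
    rw [h2 g' hg']
    change g₀ 1 = (1 : R') • g₀ 1
    rw [one_smul]

/-- Rigidity is stable under base change. -/
theorem rigid_of_isBC {R' : Type u} [CommRing R'] [Algebra k R'] (φ : R →ₐ[k] R')
    {N : GluedModule (𝒞.chart R)} {N' : GluedModule (𝒞.chart R')}
    (hBC : GluedModule.IsBC (𝒞.chartHom φ) N N') (h : Rigid 𝒞 N) : Rigid 𝒞 N' := by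
  obtain ⟨D⟩ := hBC
  exact rigid_of_baseChangeData φ D h

end Rigid

end Fermat.Agent.S25.Lib.Rigid
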